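/-
S27lib / BR / Places (helper9).

Transport of places, orders, degrees and divisors along a semilinear isomorphism of function fields
`(σ : K ≃+* K', e : F ≃+* F')`, `e (algebraMap a) = algebraMap (σ a)`.
-/
import Mathlib
import Fermat.Prelude.Def_AlgebraicCurve_DivisorClassGroup
import Fermat.Prelude.Def_AlgebraicCurve_Repartitions

set_option autoImplicit false
set_option linter.unusedSectionVars false

noncomputable section

namespace Fermat.Agent.S27lib.BR.Transport

open AlgebraicCurve

universe u v u' v'

variable {K : Type u} {F : Type v} {K' : Type u'} {F' : Type v'} [Field K] [Field F]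
  [Algebra K F] [Field K'] [Field F'] [Algebra K' F']
  (σ : K ≃+* K') (e : F ≃+* F') (comm : ∀ a : K, e (algebraMap K F a) = algebraMap K' F' (σ a))

include comm in
theorem comm_symm (a' : K') : e.symm (algebraMap K' F' a') = algebraMap K F (σ.symm a') := by
  apply e.injective
  rw [e.apply_symm_apply, comm, σ.apply_symm_apply]

/-- the ring isomorphism between a valuation subring and its transport -/
def vsEquiv (A : ValuationSubring F) : A ≃+* (A.comap (e.symm : F' →+* F)) where
  toFun a := ⟨e a, by
    show e.symm (e a) ∈ A
    rw [e.symm_apply_apply]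
    exact a.2⟩
  invFun b := ⟨e.symm b, b.2⟩
  left_inv a := by ext; simp
  right_inv b := by ext; simp
  map_mul' a b := by ext; simp
  map_add' a b := by ext; simp

@[simp] theorem coe_vsEquiv (A : ValuationSubring F) (a : A) :
    ((vsEquiv e A a : A.comap (e.symm : F' →+* F)) : F') = e a := rfl

/-- **transport of places** -/
def placeMap (P : Place K F) : Place K' F' where
  toValuationSubring := P.toValuationSubring.comap (e.symm : F' →+* F)
  algebraMap_mem' a' := by
    show e.symm (algebraMap K' F' a') ∈ P.toValuationSubring
    rw [comm_symm σ e comm]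
    exact P.algebraMap_mem' _
  ne_top' := by
    intro h
    apply P.ne_top'
    refine SetLike.ext fun f => ⟨fun _ => ValuationSubring.mem_top f, fun _ => ?_⟩
    have h1 : e f ∈ P.toValuationSubring.comap (e.symm : F' →+* F) := by
      rw [h]; exact ValuationSubring.mem_top _
    have h2 : e.symm (e f) ∈ P.toValuationSubring := h1
    rwa [e.symm_apply_apply] at h2
  isPrincipalIdealRing' :=
    IsPrincipalIdealRing.of_surjective (vsEquiv e P.toValuationSubring : _ ≃+* _)
      (vsEquiv e P.toValuationSubring).surjective

theorem mem_placeMap {P : Place K F} {f' : F'} :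
    f' ∈ (placeMap σ e comm P).toValuationSubring ↔ e.symm f' ∈ P.toValuationSubring := Iff.rfl

/-- **orders are preserved** -/
theorem ord_placeMap (P : Place K F) (f : F) : (placeMap σ e comm P).ord (e f) = P.ord f := by
  rcases eq_or_ne f 0 with rfl | hf
  · simp
  obtain ⟨π, hπ⟩ := IsDiscreteValuationRing.exists_irreducible P.toValuationSubring
  obtain ⟨w, hw⟩ := P.exists_unit_mul_zpow hf hπ
  set n := P.ord f with hn
  set E : P.toValuationSubring ≃+* (placeMap σ e comm P).toValuationSubring :=
    vsEquiv e P.toValuationSubring with hE
  have hπ' : Irreducible (E π) := (MulEquiv.irreducible_iff E).mpr hπ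
  have hw' : IsUnit (E (w : P.toValuationSubring)) := w.isUnit.map E
  have hcoeu : ((hw'.unit : (placeMap σ e comm P).toValuationSubring) : F')
      = e ((w : P.toValuationSubring) : F) := by
    rw [IsUnit.unit_spec]
    rfl
  have hcoeπ : ((E π : (placeMap σ e comm P).toValuationSubring) : F') = e (π : F) := rfl
  have key : e f = ((hw'.unit : (placeMap σ e comm P).toValuationSubring) : F')
      * (((E π : (placeMap σ e comm P).toValuationSubring) : F') ^ n) := by
    rw [hcoeu, hcoeπ, hw, map_mul, map_zpow₀]
  rw [key, (placeMap σ e comm P).ord_unit_smul_zpow hw'.unit hπ' n]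

/-- the inverse transport -/
def placeMapSymm (P' : Place K' F') : Place K F :=
  placeMap σ.symm e.symm (comm_symm σ e comm) P'

theorem placeMapSymm_placeMap (P : Place K F) :
    placeMapSymm σ e comm (placeMap σ e comm P) = P := by
  apply Place.ext
  ext f
  show e.symm.symm f ∈ (placeMap σ e comm P).toValuationSubring ↔ _
  rw [mem_placeMap]
  simp

theorem placeMap_placeMapSymm (P' : Place K' F') :
    placeMap σ e comm (placeMapSymm σ e comm P') = P' := by
  apply Place.ext
  ext f'
  rw [mem_placeMap]
  show e.symm.symm (e.symm f') ∈ P'.toValuationSubring ↔ _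
  simp

/-- **the bijection of places** -/
def placeEquiv : Place K F ≃ Place K' F' where
  toFun := placeMap σ e comm
  invFun := placeMapSymm σ e comm
  left_inv := placeMapSymm_placeMap σ e comm
  right_inv := placeMap_placeMapSymm σ e comm

@[simp] theorem placeEquiv_apply (P : Place K F) :
    placeEquiv σ e comm P = placeMap σ e comm P := rfl

theorem ord_placeEquiv_symm (P' : Place K' F') (f : F) :
    ((placeEquiv σ e comm).symm P').ord f = P'.ord (e f) := by
  have h := ord_placeMap σ e comm ((placeEquiv σ e comm).symm P') f
  rw [← placeEquiv_apply, Equiv.apply_symm_apply] at h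
  exact h.symm

end Fermat.Agent.S27lib.BR.Transport
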