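/-
S27lib / BR / Divisors (helper9).

Transport of degrees, divisors, principal divisors and `Pic⁰` along a semilinear isomorphism of
function fields; equality of the cardinalities of the torsion subgroups.
-/
import Mathlib
import Fermat.Agent.S27lib.BR.Places

set_option autoImplicit false
set_option linter.unusedSectionVars false

noncomputable section

namespace Fermat.Agent.S27lib.BR.Transport

open AlgebraicCurve

universe u v u' v'

variable {K : Type u} {F : Type v} {K' : Type u'} {F' : Type v'} [Field K] [Field F]
  [Algebra K F] [Field K'] [Field F'] [Algebra K' F']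
  (σ : K ≃+* K') (e : F ≃+* F') (comm : ∀ a : K, e (algebraMap K F a) = algebraMap K' F' (σ a))

/-- the isomorphism of residue fields -/
def resEquiv (P : Place K F) : P.ResidueField ≃+* (placeMap σ e comm P).ResidueField :=
  IsLocalRing.ResidueField.mapEquiv
    (vsEquiv e P.toValuationSubring :
      P.toValuationSubring ≃+* (placeMap σ e comm P).toValuationSubring)

theorem resEquiv_algebraMap (P : Place K F) (a : K) :
    resEquiv σ e comm P (algebraMap K P.ResidueField a) =
      algebraMap K' (placeMap σ e comm P).ResidueField (σ a) := by
  have h3 : (vsEquiv e P.toValuationSubring :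
      P.toValuationSubring ≃+* (placeMap σ e comm P).toValuationSubring)
      (algebraMap K P.toValuationSubring a)
      = algebraMap K' (placeMap σ e comm P).toValuationSubring (σ a) := by
    ext
    rw [coe_vsEquiv, Place.coe_algebraMap, comm]
    rfl
  show IsLocalRing.ResidueField.mapEquiv _ (IsLocalRing.residue _ _) = IsLocalRing.residue _ _
  rw [IsLocalRing.ResidueField.mapEquiv_apply, IsLocalRing.ResidueField.map_residue]
  exact congrArg _ h3

/-- **degrees are preserved** -/
theorem deg_placeMap (P : Place K F) : (placeMap σ e comm P).deg = P.deg := by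
  refine (Algebra.finrank_eq_of_equiv_equiv σ (resEquiv σ e comm P) ?_).symm
  refine RingHom.ext fun a => ?_
  exact (resEquiv_algebraMap σ e comm P a).symm

/-- **transport of divisors** -/
def divEquiv : Divisor K F ≃+ Divisor K' F' := Finsupp.domCongr (placeEquiv σ e comm)

@[simp] theorem divEquiv_apply (D : Divisor K F) (P' : Place K' F') :
    divEquiv σ e comm D P' = D ((placeEquiv σ e comm).symm P') := rfl

theorem divEquiv_apply_placeMap (D : Divisor K F) (P : Place K F) :
    divEquiv σ e comm D (placeMap σ e comm P) = D P := by
  rw [divEquiv_apply, ← placeEquiv_apply, Equiv.symm_apply_apply]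

theorem divEquiv_single (P : Place K F) (n : ℤ) :
    divEquiv σ e comm (Finsupp.single P n) = Finsupp.single (placeMap σ e comm P) n := by
  rw [divEquiv, Finsupp.domCongr_apply, Finsupp.equivMapDomain_single]
  rfl

theorem degree_divEquiv (D : Divisor K F) :
    Divisor.degree (divEquiv σ e comm D) = Divisor.degree D := by
  induction D using Finsupp.induction with
  | zero => simp
  | single_add P n D _ _ ih =>
    rw [map_add, map_add, map_add, ih, divEquiv_single, Divisor.degree_single,
      Divisor.degree_single, deg_placeMap]

theorem divEquiv_mem_degZero {D : Divisor K F} :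
    divEquiv σ e comm D ∈ Divisor.degZero (K := K') (F := F') ↔
      D ∈ Divisor.degZero (K := K) (F := F) := by
  rw [Divisor.mem_degZero, Divisor.mem_degZero, degree_divEquiv]

theorem divEquiv_mem_principal {D : Divisor K F} :
    divEquiv σ e comm D ∈ Divisor.principal (K := K') (F := F') ↔
      D ∈ Divisor.principal (K := K) (F := F) := by
  constructor
  · rintro ⟨f', hf', hD⟩
    refine ⟨e.symm f', by simpa using hf', fun P => ?_⟩
    have h1 := hD (placeMap σ e comm P)
    rw [divEquiv_apply_placeMap] at h1
    rw [h1, ← ord_placeMap σ e comm P (e.symm f'), e.apply_symm_apply]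
  · rintro ⟨f, hf, hD⟩
    refine ⟨e f, by simpa using hf, fun P' => ?_⟩
    rw [divEquiv_apply, hD, ord_placeEquiv_symm]

/-- transport of divisors of degree zero -/
def degZeroEquiv : Divisor.degZero (K := K) (F := F) ≃+ Divisor.degZero (K := K') (F := F') where
  toFun D := ⟨divEquiv σ e comm D, (divEquiv_mem_degZero σ e comm).mpr D.2⟩
  invFun D' := ⟨(divEquiv σ e comm).symm D', by
    rw [← divEquiv_mem_degZero σ e comm, AddEquiv.apply_symm_apply]
    exact D'.2⟩
  left_inv D := by ext1; simp
  right_inv D' := by ext1; simp
  map_add' D E := by ext1; simp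

/-- **transport of `Pic⁰`** -/
def pic0Equiv : Pic0 K F ≃+ Pic0 K' F' :=
  QuotientAddGroup.congr _ _ (degZeroEquiv σ e comm) (by
    ext D'
    simp only [AddSubgroup.mem_map, AddSubgroup.mem_addSubgroupOf]
    constructor
    · rintro ⟨D, hD, rfl⟩
      exact (divEquiv_mem_principal σ e comm).mpr hD
    · intro hD'
      refine ⟨(degZeroEquiv σ e comm).symm D', ?_, by simp⟩
      rw [← divEquiv_mem_principal σ e comm]
      have : divEquiv σ e comm (((degZeroEquiv σ e comm).symm D' : Divisor.degZero) : Divisor K F)
          = (D' : Divisor K' F') := by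
        show divEquiv σ e comm ((divEquiv σ e comm).symm D') = _
        simp
      rw [this]
      exact hD')

include comm in
/-- **the torsion subgroups of `Pic⁰` have the same cardinality** -/
theorem card_torsion (n : ℕ) :
    Nat.card (Pic0.torsion K F n) = Nat.card (Pic0.torsion K' F' n) := by
  refine Nat.card_congr ?_
  refine Equiv.subtypeEquiv (pic0Equiv σ e comm).toEquiv fun x => ?_
  show x ∈ Pic0.torsion K F n ↔ pic0Equiv σ e comm x ∈ Pic0.torsion K' F' n
  rw [Pic0.mem_torsion, Pic0.mem_torsion, ← map_zsmul]
  exact ((pic0Equiv σ e comm).map_eq_zero_iff).symm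

end Fermat.Agent.S27lib.BR.Transport
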