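/-
S27lib / BR / Curve (helper9).

Transport of Riemann–Roch spaces and of `S18lib.IsCurveOfGenus` along a semilinear isomorphism
of function fields.
-/
import Mathlib
import Fermat.Agent.S27lib.BR.Divisors
import Fermat.Agent.S18lib.Setup.CurveRR

set_option autoImplicit false
set_option linter.unusedSectionVars false

noncomputable section

namespace Fermat.Agent.S27lib.BR.Transport

open AlgebraicCurve Fermat.Agent.S18lib

universe u v u' v'

variable {K : Type u} {F : Type v} {K' : Type u'} {F' : Type v'} [Field K] [Field F]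
  [Algebra K F] [Field K'] [Field F'] [Algebra K' F']
  (σ : K ≃+* K') (e : F ≃+* F') (comm : ∀ a : K, e (algebraMap K F a) = algebraMap K' F' (σ a))

/-- **`L(D)` is transported to `L(e D)`** -/
theorem map_mem_riemannRochSpace (D : Divisor K F) (f : F) :
    e f ∈ riemannRochSpace (divEquiv σ e comm D) ↔ f ∈ riemannRochSpace D := by
  rw [mem_riemannRochSpace_iff, mem_riemannRochSpace_iff]
  constructor
  · intro h v
    have h1 := h (placeMap σ e comm v)
    rw [divEquiv_apply_placeMap, ord_placeMap] at h1
    rcases h1 with h0 | h1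
    · left
      exact (map_eq_zero_iff e e.injective).1 h0
    · exact Or.inr h1
  · intro h v'
    have h1 := h ((placeEquiv σ e comm).symm v')
    rw [ord_placeEquiv_symm] at h1
    rcases h1 with h0 | h1
    · left
      rw [h0, map_zero]
    · right
      rw [divEquiv_apply]
      exact h1

theorem symm_mem_riemannRochSpace (D : Divisor K F) (f' : F') :
    e.symm f' ∈ riemannRochSpace D ↔ f' ∈ riemannRochSpace (divEquiv σ e comm D) := by
  rw [← map_mem_riemannRochSpace σ e comm D, e.apply_symm_apply]

/-- the additive equivalence `L(D) ≃+ L(e D)` -/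
def rrEquiv (D : Divisor K F) :
    riemannRochSpace D ≃+ riemannRochSpace (divEquiv σ e comm D) where
  toFun f := ⟨e f, (map_mem_riemannRochSpace σ e comm D f).2 f.2⟩
  invFun f' := ⟨e.symm f', (symm_mem_riemannRochSpace σ e comm D f').2 f'.2⟩
  left_inv f := by ext; simp
  right_inv f' := by ext; simp
  map_add' f g := by ext; simp

theorem rrEquiv_smul (D : Divisor K F) (c : K) (f : riemannRochSpace D) :
    rrEquiv σ e comm D (c • f) = σ c • rrEquiv σ e comm D f := by
  ext
  show e ((c • f : riemannRochSpace D) : F) = σ c • e (f : F)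
  rw [Submodule.coe_smul, Algebra.smul_def, map_mul, comm, Algebra.smul_def]

theorem lift_rank_riemannRochSpace (D : Divisor K F) :
    Cardinal.lift.{v'} (Module.rank K (riemannRochSpace D)) =
      Cardinal.lift.{v} (Module.rank K' (riemannRochSpace (divEquiv σ e comm D))) :=
  lift_rank_eq_of_equiv_equiv σ (rrEquiv σ e comm D) σ.bijective (rrEquiv_smul σ e comm D)

/-- **dimensions of Riemann–Roch spaces are preserved** -/
theorem finrank_riemannRochSpace (D : Divisor K F) :
    Module.finrank K' (riemannRochSpace (divEquiv σ e comm D)) =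
      Module.finrank K (riemannRochSpace D) := by
  have h := congrArg Cardinal.toNat (lift_rank_riemannRochSpace σ e comm D)
  rw [Cardinal.toNat_lift, Cardinal.toNat_lift] at h
  exact h.symm

theorem finiteDimensional_riemannRochSpace (D : Divisor K F)
    [FiniteDimensional K (riemannRochSpace D)] :
    FiniteDimensional K' (riemannRochSpace (divEquiv σ e comm D)) := by
  have h1 : Module.rank K (riemannRochSpace D) < Cardinal.aleph0 := Module.rank_lt_aleph0 _ _
  show Module.Finite K' (riemannRochSpace (divEquiv σ e comm D))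
  rw [← Module.rank_lt_aleph0_iff, ← Cardinal.lift_lt_aleph0.{v', v},
    ← lift_rank_riemannRochSpace σ e comm D, Cardinal.lift_lt_aleph0]
  exact h1

include comm in
theorem hasPrincipalDivisors [h : HasPrincipalDivisors K F] : HasPrincipalDivisors K' F' := by
  refine ⟨fun f' hf' => ?_⟩
  have hf : e.symm f' ≠ 0 := by
    intro h0
    exact hf' ((map_eq_zero_iff e.symm e.symm.injective).1 h0)
  obtain ⟨D, hD, hdeg⟩ := h.exists_divisor (e.symm f') hf
  refine ⟨divEquiv σ e comm D, fun v' => ?_, ?_⟩
  · rw [divEquiv_apply, hD, ord_placeEquiv_symm, e.apply_symm_apply]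
  · rw [degree_divEquiv, hdeg]

include comm in
/-- **transport of `IsCurveOfGenus`** -/
theorem isCurveOfGenus {g : ℕ} (h : IsCurveOfGenus K F g) : IsCurveOfGenus K' F' g := by
  have hsurj : ∀ E' : Divisor K' F', ∃ E : Divisor K F, divEquiv σ e comm E = E' := fun E' =>
    ⟨(divEquiv σ e comm).symm E', (divEquiv σ e comm).apply_symm_apply E'⟩
  refine ⟨?_, ?_, ?_, ?_, ?_, ?_, ?_⟩
  · have := h.hasPrincipalDivisors
    exact hasPrincipalDivisors σ e comm
  · intro P'
    obtain ⟨P, rfl⟩ := (placeEquiv σ e comm).surjective P'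
    rw [placeEquiv_apply, deg_placeMap]
    exact h.deg_eq_one P
  · have := h.infinite_places
    exact Infinite.of_injective _ (placeEquiv σ e comm).injective
  · ext f'
    have h0 : divEquiv σ e comm (0 : Divisor K F) = 0 := map_zero _
    rw [← h0, ← symm_mem_riemannRochSpace σ e comm, h.riemannRochSpace_zero]
    simp only [Subalgebra.mem_toSubmodule, Algebra.mem_bot, Set.mem_range]
    constructor
    · rintro ⟨a, ha⟩
      refine ⟨σ a, ?_⟩
      rw [← comm, ha, e.apply_symm_apply]
    · rintro ⟨a', rfl⟩
      exact ⟨σ.symm a', (comm_symm σ e comm a').symm⟩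
  · intro E'
    obtain ⟨E, rfl⟩ := hsurj E'
    have := h.finiteDimensional E
    exact finiteDimensional_riemannRochSpace σ e comm E
  · intro E'
    obtain ⟨E, rfl⟩ := hsurj E'
    rw [finrank_riemannRochSpace, degree_divEquiv]
    exact h.riemann_le E
  · intro E' hE'
    obtain ⟨E, rfl⟩ := hsurj E'
    rw [degree_divEquiv] at hE'
    rw [finrank_riemannRochSpace, degree_divEquiv]
    exact h.riemann_eq E hE'

end Fermat.Agent.S27lib.BR.Transport
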