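/-
S27lib / BR / FunField (helper9).

Transport of "`x` is a separating variable" (`x` transcendental over `K`, `F` finite over `K(x)`)
along a semilinear isomorphism of function fields.
-/
import Mathlib
import Fermat.Agent.S27lib.BR.Places

set_option autoImplicit false
set_option linter.unusedSectionVars false

noncomputable section

namespace Fermat.Agent.S27lib.BR.Transport

open IntermediateField

universe u v u' v'

variable {K : Type u} {F : Type v} {K' : Type u'} {F' : Type v'} [Field K] [Field F]
  [Algebra K F] [Field K'] [Field F'] [Algebra K' F']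
  (σ : K ≃+* K') (e : F ≃+* F') (comm : ∀ a : K, e (algebraMap K F a) = algebraMap K' F' (σ a))

include comm in
theorem aeval_map (p : Polynomial K) (x : F) :
    Polynomial.aeval (e x) (p.map (σ : K →+* K')) = e (Polynomial.aeval x p) := by
  have h := Polynomial.hom_eval₂ p (algebraMap K F) (e : F →+* F') x
  rw [Polynomial.aeval_def, Polynomial.aeval_def, Polynomial.eval₂_map]
  refine Eq.trans ?_ h.symm
  congr 1
  ext a
  exact (comm a).symm

include comm in
/-- **transcendence is preserved** -/
theorem transcendental_map {x : F} (hx : Transcendental K x) : Transcendental K' (e x) := by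
  intro halg
  apply hx
  obtain ⟨p', hp', hroot⟩ := halg
  refine ⟨p'.map (σ.symm : K' →+* K), ?_, ?_⟩
  · rwa [Ne, Polynomial.map_eq_zero_iff σ.symm.injective]
  · apply e.injective
    rw [← aeval_map σ e comm, Polynomial.map_map, map_zero]
    have : (σ : K →+* K').comp (σ.symm : K' →+* K) = RingHom.id K' := by
      ext a
      simp
    rw [this, Polynomial.map_id]
    exact hroot

/-- the image of an intermediate field -/
def mapIF (L : IntermediateField K F) : IntermediateField K' F' where
  toSubalgebra :=
    { (L.toSubfield.map (e : F →+* F')).toSubring.toSubsemiring with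
      algebraMap_mem' := fun a' => by
        refine ⟨algebraMap K F (σ.symm a'), L.algebraMap_mem _, ?_⟩
        show e (algebraMap K F (σ.symm a')) = _
        rw [comm, σ.apply_symm_apply] }
  inv_mem' := fun y hy => (L.toSubfield.map (e : F →+* F')).inv_mem hy

theorem mem_mapIF {L : IntermediateField K F} {y : F'} :
    y ∈ mapIF σ e comm L ↔ ∃ z ∈ L, e z = y := Iff.rfl

theorem map_mem_mapIF {L : IntermediateField K F} {z : F} :
    e z ∈ mapIF σ e comm L ↔ z ∈ L := by
  rw [mem_mapIF]
  constructor
  · rintro ⟨w, hw, hwz⟩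
    rwa [← e.injective hwz]
  · intro hz
    exact ⟨z, hz, rfl⟩

theorem mapIF_mono {L M : IntermediateField K F} (h : L ≤ M) :
    mapIF σ e comm L ≤ mapIF σ e comm M := by
  rintro y ⟨z, hz, rfl⟩
  exact ⟨z, h hz, rfl⟩

theorem mapIF_mapIF_symm (L' : IntermediateField K' F') :
    mapIF σ e comm (mapIF σ.symm e.symm (comm_symm σ e comm) L') = L' := by
  ext y
  rw [mem_mapIF]
  constructor
  · rintro ⟨z, hz, rfl⟩
    obtain ⟨w, hw, rfl⟩ := (mem_mapIF σ.symm e.symm (comm_symm σ e comm)).1 hz
    rwa [e.apply_symm_apply]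
  · intro hy
    exact ⟨e.symm y, ⟨y, hy, rfl⟩, e.apply_symm_apply y⟩

/-- **the image of `K(x)` is `K'(e x)`** -/
theorem mapIF_adjoin_simple (x : F) : mapIF σ e comm K⟮x⟯ = K'⟮e x⟯ := by
  apply le_antisymm
  · have h1 : K⟮x⟯ ≤ mapIF σ.symm e.symm (comm_symm σ e comm) K'⟮e x⟯ := by
      rw [adjoin_simple_le_iff]
      exact ⟨e x, mem_adjoin_simple_self K' (e x), e.symm_apply_apply x⟩
    have h2 := mapIF_mono σ e comm h1
    rwa [mapIF_mapIF_symm] at h2
  · rw [adjoin_simple_le_iff]
    exact ⟨x, mem_adjoin_simple_self K x, rfl⟩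

/-- the ring isomorphism `L ≃+* e(L)` -/
def mapIFEquiv (L : IntermediateField K F) : L ≃+* mapIF σ e comm L where
  toFun z := ⟨e z, (map_mem_mapIF σ e comm).2 z.2⟩
  invFun y := ⟨e.symm y, by
    obtain ⟨z, hz, hzy⟩ := (mem_mapIF σ e comm).1 y.2
    rw [← hzy, e.symm_apply_apply]
    exact hz⟩
  left_inv z := by ext; simp
  right_inv y := by ext; simp
  map_mul' z w := by ext; simp
  map_add' z w := by ext; simp

theorem finiteDimensional_mapIF (L : IntermediateField K F) [FiniteDimensional L F] :
    FiniteDimensional (mapIF σ e comm L) F' :=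
  Module.Finite.of_equiv_equiv (mapIFEquiv σ e comm L) e (by ext z; rfl)

include comm in
/-- **finiteness over `K(x)` is preserved** -/
theorem finiteDimensional_map (x : F) [FiniteDimensional K⟮x⟯ F] :
    FiniteDimensional K'⟮e x⟯ F' := by
  have h := finiteDimensional_mapIF σ e comm K⟮x⟯
  rwa [mapIF_adjoin_simple] at h

include comm in
/-- **transport of separating variables** -/
theorem exists_sep (h : ∃ x : F, Transcendental K x ∧ FiniteDimensional K⟮x⟯ F) :
    ∃ x' : F', Transcendental K' x' ∧ FiniteDimensional K'⟮x'⟯ F' := by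
  obtain ⟨x, hx, hfin⟩ := h
  exact ⟨e x, transcendental_map σ e comm hx, finiteDimensional_map σ e comm x⟩

end Fermat.Agent.S27lib.BR.Transport
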